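import Fermat.Agent.S55.H696.DevFilt

/-!
# S55 / dévissage for level-constant `H³` (helper696): main theorem

`devissage` : let `G` be a group with a level system `L` (normal levels cofinal, levels of finite
index), `p` a prime, `μ` a uniformly smooth one-dimensional `𝔽_p`-representation such that
`H³_lc(G, Ind_H μ) = 0` for every open subgroup `H` acting trivially on `μ`.  Then
`H³_lc(G, R) = 0` for every finite-dimensional uniformly smooth `𝔽_p`-representation `R`.

The statement is (up to the names `IsOpenSubgroup`, `H3Van`, which are verbatim copies of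
`KL.IsOpenSub`, `KL.H3Vanish`) the leaf **KL-P3** `H3DevissageSpec` of helper53's layer KL.

Proof.  `U` a normal level acting trivially on `R` and `μ`, `H` the preimage of a Sylow
`p`-subgroup of `G ⧸ U`.
* `R` is a retract (up to the unit `[G : H]`) of `Ind_H R`            (`h3Van_of_filtRep_top`);
* `Ind_H R = filt ⊤` has a `G`-stable flag `filt N`, `N` running through an `H`-stable flag of
  `R` with trivial graded pieces, and `filt N / filt N' ≅ Ind_H μ`     (`h3Van_filtRep`);
* `H³_lc = 0` is stable under extensions                               (`h3Van_of_ses`).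
-/

set_option autoImplicit false
set_option linter.style.haveILetI false

noncomputable section

namespace Fermat.Agent.S55.H696

open groupCohomology Fermat.Agent.S55.PT

variable {G : Type} [Group G] {p : ℕ} [hp : Fact p.Prime]

/-- Induction along the flag. -/
theorem h3Van_filtRep (L : LevelSys G) (hN : L.NormalCofinal) (H U : Subgroup G) [U.Normal]
    (hU : U ∈ L.levels) (hUH : U ≤ H) (hpow : ∀ h ∈ H, ∃ n : ℕ, h ^ p ^ n ∈ U)
    (R μ : Rep.{0, 0, 0} (ZMod p) G) [FiniteDimensional (ZMod p) R]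
    (hUR : ∀ s ∈ U, ∀ r : R, R.ρ s r = r)
    (hμ1 : Module.finrank (ZMod p) μ = 1) (hμH : ∀ h ∈ H, μ.ρ h = 1)
    (hInd : H3Van L (indRep H μ)) :
    ∀ (d : ℕ) (N : Submodule (ZMod p) R), (∀ h ∈ H, N ≤ N.comap (R.ρ h)) →
      Module.finrank (ZMod p) N = d → H3Van L (filtRep H R N) := by
  intro d
  induction d using Nat.strong_induction_on with
  | _ d ih =>
    intro N hNH hd
    by_cases hbot : N = ⊥
    · subst hbot
      exact h3Van_of_subsingleton L
    · -- an invariant linear form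
      let ρH : Representation (ZMod p) ↥H R := R.ρ.comp H.subtype
      have hpow' : ∀ h : ↥H, ∃ n : ℕ, ρH (h ^ p ^ n) = 1 := by
        intro h
        obtain ⟨n, hn⟩ := hpow h h.2
        refine ⟨n, ?_⟩
        apply LinearMap.ext
        intro r
        show R.ρ ((h ^ p ^ n : ↥H) : G) r = r
        rw [Subgroup.coe_pow]
        exact hUR _ hn r
      obtain ⟨ℓ, hℓ, n₀, hn₀, hℓn₀⟩ := exists_invariant_functional ρH hpow' N hbot
        (fun h => hNH h h.2)
      have hℓ' : ∀ h ∈ H, ∀ n ∈ N, ℓ (R.ρ h n) = ℓ n := fun h hh n hn => hℓ ⟨h, hh⟩ n hn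
      obtain ⟨m₀, hm₀, -⟩ := finrank_eq_one_iff'.1 hμ1
      -- the smaller subspace
      have hN'H : ∀ h ∈ H, (N ⊓ LinearMap.ker ℓ) ≤ (N ⊓ LinearMap.ker ℓ).comap (R.ρ h) := by
        intro h hh n hn
        refine ⟨hNH h hh hn.1, ?_⟩
        show ℓ (R.ρ h n) = 0
        rw [hℓ' h hh n hn.1]
        exact hn.2
      have hlt : N ⊓ LinearMap.ker ℓ < N := by
        refine lt_of_le_of_ne inf_le_left fun h => ?_
        have : n₀ ∈ N ⊓ LinearMap.ker ℓ := by rw [h]; exact hn₀
        exact hℓn₀ this.2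
      have hfr : Module.finrank (ZMod p) ↥(N ⊓ LinearMap.ker ℓ) < d := by
        rw [← hd]
        exact Submodule.finrank_lt_finrank_of_lt hlt
      have hA : H3Van L (filtRep H R (N ⊓ LinearMap.ker ℓ)) := ih _ hfr _ hN'H rfl
      have hBs : L.IsUSmooth (filtRep H R N) :=
        ⟨U, hU, fun s hs a => Subtype.ext (indAct_eq_self_of_normal H R U hUH hUR s hs a.1)⟩
      exact h3Van_of_ses (filtSES H R μ ℓ m₀ N hμ1 hμH hNH hℓ' hm₀ ⟨n₀, hn₀, hℓn₀⟩) hN hBs
        hA hInd

/-- `R` is a retract of `Ind_H R` if `[G : H]` is prime to `p`. -/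
theorem h3Van_of_filtRep_top (L : LevelSys G) (H : Subgroup G) [H.FiniteIndex]
    (hidx : ¬ p ∣ H.index) (R : Rep.{0, 0, 0} (ZMod p) G)
    (h : H3Van L (filtRep H R ⊤)) : H3Van L R := by
  classical
  haveI : Fintype (G ⧸ H) := Fintype.ofFinite _
  let diag0 : R →ₗ[ZMod p] ((G ⧸ H) →₀ R) := ∑ x : G ⧸ H, Finsupp.lsingle x
  have hdiag0 : ∀ r : R, diag0 r = ∑ x : G ⧸ H, Finsupp.single x r := by
    intro r
    simp only [diag0, LinearMap.sum_apply, Finsupp.lsingle_apply]
  let diag : R →ₗ[ZMod p] ↥(filt H R (⊤ : Submodule (ZMod p) R)) :=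
    diag0.codRestrict _ (fun _ _ => Submodule.mem_top)
  let aug : ↥(filt H R (⊤ : Submodule (ZMod p) R)) →ₗ[ZMod p] R :=
    (indAug H R) ∘ₗ (filt H R ⊤).subtype
  have hdiag : IsEquivariant (A := R) (B := filtRep H R ⊤) diag := by
    intro g r
    apply Subtype.ext
    show diag0 (R.ρ g r) = indAct H R g (diag0 r)
    rw [hdiag0, hdiag0, map_sum]
    simp only [indAct_single]
    exact (Equiv.sum_comp (MulAction.toPerm g : Equiv.Perm (G ⧸ H))
      (fun x => (Finsupp.single x (R.ρ g r) : (G ⧸ H) →₀ R))).symm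
  have haug : IsEquivariant (A := filtRep H R ⊤) (B := R) aug := by
    intro g f
    exact indAug_equivariant H R g f.1
  have hc : ((H.index : ℕ) : ZMod p) ≠ 0 := by
    rw [Ne, ZMod.natCast_eq_zero_iff]
    exact hidx
  refine h3Van_of_retract hdiag haug hc (fun r => ?_) h
  show indAug H R (diag0 r) = _
  rw [hdiag0, map_sum]
  simp only [indAug_single, Finset.sum_const, Finset.card_univ]
  rw [← Nat.card_eq_fintype_card, ← Subgroup.index_eq_card, Nat.cast_smul_eq_nsmul]

/-- **Dévissage** (leaf KL-P3). -/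
theorem devissage (G : Type) [Group G] (L : LevelSys G) (p : ℕ) [Fact p.Prime]
    (μ : Rep.{0, 0, 0} (ZMod p) G)
    (hNC : L.NormalCofinal) (hFI : L.FiniteIndex) (hμ1 : Module.finrank (ZMod p) μ = 1)
    (hμs : L.IsUSmooth μ)
    (hInd : ∀ H : Subgroup G, IsOpenSubgroup L H → (∀ s ∈ H, μ.ρ s = 1) →
      H3Van L (indRep H μ))
    (R : Rep.{0, 0, 0} (ZMod p) G) (hR : FiniteDimensional (ZMod p) R) (hRs : L.IsUSmooth R) :
    H3Van L R := by
  classical
  obtain ⟨U₁, hU₁, h1⟩ := hμs
  obtain ⟨U₂, hU₂, h2⟩ := hRs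
  obtain ⟨U, hU, hUU₁, hUU₂, hUn⟩ := exists_normal_level_le hNC hU₁ hU₂
  haveI := hUn
  haveI : U.FiniteIndex := hFI U hU
  haveI : Finite (G ⧸ U) := Subgroup.finite_quotient_of_finiteIndex
  let P : Sylow p (G ⧸ U) := Classical.arbitrary _
  let H : Subgroup G := (P : Subgroup (G ⧸ U)).comap (QuotientGroup.mk' U)
  have hUH : U ≤ H := by
    intro s hs
    show QuotientGroup.mk' U s ∈ (P : Subgroup (G ⧸ U))
    have h1 : QuotientGroup.mk' U s = 1 := (QuotientGroup.eq_one_iff s).2 hs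
    rw [h1]
    exact Subgroup.one_mem _
  have hpow : ∀ h ∈ H, ∃ n : ℕ, h ^ p ^ n ∈ U := by
    intro h hh
    obtain ⟨n, hn⟩ := P.isPGroup' ⟨QuotientGroup.mk' U h, hh⟩
    refine ⟨n, ?_⟩
    have h3 := congrArg Subtype.val hn
    simp only [Subgroup.coe_pow, Subgroup.coe_one] at h3
    rw [← map_pow] at h3
    exact (QuotientGroup.eq_one_iff _).1 h3
  have hidx : ¬ p ∣ H.index := by
    have : H.index = (P : Subgroup (G ⧸ U)).index :=
      Subgroup.index_comap_of_surjective _ (QuotientGroup.mk'_surjective U)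
    rw [this]
    exact P.not_dvd_index
  haveI : H.FiniteIndex := ⟨fun h0 => hidx (by rw [h0]; exact dvd_zero p)⟩
  have hμH : ∀ h ∈ H, μ.ρ h = 1 := by
    intro h hh
    obtain ⟨n, hn⟩ := hpow h hh
    refine rho_eq_one_of_finrank_eq_one μ.ρ hμ1 h n ?_
    apply LinearMap.ext
    intro m
    exact h1 _ (hUU₁ hn) m
  have hIndH : H3Van L (indRep H μ) := hInd H ⟨U, hU, hUH⟩ hμH
  haveI := hR
  have htop : H3Van L (filtRep H R ⊤) :=
    h3Van_filtRep L hNC H U hU hUH hpow R μ (fun s hs r => h2 s (hUU₂ hs) r) hμ1 hμH hIndH _ ⊤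
      (fun _ _ _ _ => Submodule.mem_top) rfl
  exact h3Van_of_filtRep_top L H hidx R htop

end Fermat.Agent.S55.H696

end
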