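import Fermat.Agent.S55.PT.Ind

/-!
# S55 / dévissage for level-constant `H³` (helper696), part 1: closure properties

Vocabulary (verbatim copies of the definitions of helper53's layer-KL interface, so that the
final statement is definitionally the Spec `H3DevissageSpec`):

* `IsLC3 L f`      : the 3-cochain `f` is level-constant;
* `IsCoc3 A f`     : the inhomogeneous 3-cocycle condition;
* `H3Van L A`      : every level-constant 3-cocycle is `d` of a level-constant 2-cochain.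

Closure properties of `H3Van` (cochain level, `k` a field):

* `h3Van_of_subsingleton` : the zero module;
* `h3Van_of_retract`      : `A → B → A` equivariant with composite an invertible scalar;
* `h3Van_of_ses`          : extensions `0 → A → B → C → 0` (`B` uniformly smooth, normal levels
                            cofinal).
-/

set_option autoImplicit false

noncomputable section

namespace Fermat.Agent.S55.H696

open groupCohomology Fermat.Agent.S55.PT

variable {G : Type} [Group G] {k : Type}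

/-- `H` contains a level. -/
def IsOpenSubgroup (L : LevelSys G) (H : Subgroup G) : Prop := ∃ U ∈ L.levels, U ≤ H

/-- Level-constant 3-cochains. -/
def IsLC3 (L : LevelSys G) {X : Type*} (f : G × G × G → X) : Prop :=
  ∃ U ∈ L.levels, ∀ g₁ g₂ g₃ s₁ s₂ s₃ : G, s₁ ∈ U → s₂ ∈ U → s₃ ∈ U →
    f (g₁ * s₁, g₂ * s₂, g₃ * s₃) = f (g₁, g₂, g₃)

/-- The inhomogeneous 3-cocycle condition. -/
def IsCoc3 [CommRing k] (A : Rep.{0, 0, 0} k G) (f : G × G × G → A) : Prop :=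
  ∀ g h i j : G,
    A.ρ g (f (h, i, j)) - f (g * h, i, j) + f (g, h * i, j) - f (g, h, i * j) + f (g, h, i) = 0

/-- `H³_lc(G, A) = 0`. -/
def H3Van [CommRing k] (L : LevelSys G) (A : Rep.{0, 0, 0} k G) : Prop :=
  ∀ z : G × G × G → A, IsLC3 L z → IsCoc3 A z →
    ∃ b : G × G → A, L.IsLC₂ b ∧ (d₂₃ A).hom b = z

/-! ### level-constancy -/

section LC

variable {L : LevelSys G}

lemma IsLC3.comp {X Y : Type*} {f : G × G × G → X} (hf : IsLC3 L f) (φ : X → Y) :
    IsLC3 L (φ ∘ f) := by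
  obtain ⟨U, hU, h⟩ := hf
  exact ⟨U, hU, fun g₁ g₂ g₃ s₁ s₂ s₃ h₁ h₂ h₃ => by
    simp only [Function.comp_apply, h g₁ g₂ g₃ s₁ s₂ s₃ h₁ h₂ h₃]⟩

lemma IsLC3.sub {X : Type*} [Sub X] {f f' : G × G × G → X} (hf : IsLC3 L f)
    (hf' : IsLC3 L f') : IsLC3 L (f - f') := by
  obtain ⟨U, hU, h⟩ := hf
  obtain ⟨V, hV, h'⟩ := hf'
  obtain ⟨W, hW, hle⟩ := L.directed U hU V hV
  refine ⟨W, hW, fun g₁ g₂ g₃ s₁ s₂ s₃ h₁ h₂ h₃ => ?_⟩
  simp only [Pi.sub_apply]
  rw [h g₁ g₂ g₃ s₁ s₂ s₃ (hle h₁).1 (hle h₂).1 (hle h₃).1,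
    h' g₁ g₂ g₃ s₁ s₂ s₃ (hle h₁).2 (hle h₂).2 (hle h₃).2]

/-- A level below two given levels which is moreover normal. -/
lemma exists_normal_level_le (hN : L.NormalCofinal) {U V : Subgroup G} (hU : U ∈ L.levels)
    (hV : V ∈ L.levels) : ∃ W ∈ L.levels, W ≤ U ∧ W ≤ V ∧ W.Normal := by
  obtain ⟨W₀, hW₀, hle⟩ := L.directed U hU V hV
  obtain ⟨W, hW, hWle, hWn⟩ := hN W₀ hW₀
  exact ⟨W, hW, fun x hx => (hle (hWle hx)).1, fun x hx => (hle (hWle hx)).2, hWn⟩

variable [CommRing k] {A : Rep.{0, 0, 0} k G}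

/-- `d` of a level-constant 2-cochain with values in a uniformly smooth module is
level-constant. -/
lemma isLC3_d₂₃ (hN : L.NormalCofinal) (hA : L.IsUSmooth A) {b : G × G → A}
    (hb : L.IsLC₂ b) : IsLC3 L ((d₂₃ A).hom b) := by
  obtain ⟨U, hU, hUA⟩ := hA
  obtain ⟨V, hV, hVb⟩ := hb
  obtain ⟨W, hW, hWU, hWV, hWn⟩ := exists_normal_level_le hN hU hV
  refine ⟨W, hW, fun g₁ g₂ g₃ s₁ s₂ s₃ h₁ h₂ h₃ => ?_⟩
  have conj : ∀ (g s : G), s ∈ W → g⁻¹ * s * g ∈ W := fun g s hs => by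
    have := hWn.conj_mem s hs g⁻¹
    simpa using this
  have e1 : g₁ * s₁ * (g₂ * s₂) = g₁ * g₂ * (g₂⁻¹ * s₁ * g₂ * s₂) := by group
  have e2 : g₂ * s₂ * (g₃ * s₃) = g₂ * g₃ * (g₃⁻¹ * s₂ * g₃ * s₃) := by group
  have m1 : g₂⁻¹ * s₁ * g₂ * s₂ ∈ V := hWV (W.mul_mem (conj g₂ s₁ h₁) h₂)
  have m2 : g₃⁻¹ * s₂ * g₃ * s₃ ∈ V := hWV (W.mul_mem (conj g₃ s₂ h₂) h₃)
  simp only [d₂₃_hom_apply]
  rw [e1, e2, hVb g₂ g₃ s₂ s₃ (hWV h₂) (hWV h₃), hVb (g₁ * g₂) g₃ _ s₃ m1 (hWV h₃),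
    hVb g₁ (g₂ * g₃) s₁ _ (hWV h₁) m2, hVb g₁ g₂ s₁ s₂ (hWV h₁) (hWV h₂), map_mul,
    Module.End.mul_apply, hUA s₁ (hWU h₁)]

end LC

/-! ### the cocycle condition -/

section Coc

variable [CommRing k] {A B : Rep.{0, 0, 0} k G}

lemma isCoc3_d₂₃ (b : G × G → A) : IsCoc3 A ((d₂₃ A).hom b) := by
  intro g h i j
  simp only [d₂₃_hom_apply, map_sub, map_add, mul_assoc]
  rw [← Module.End.mul_apply, ← map_mul]
  abel

lemma IsCoc3.sub {f f' : G × G × G → A} (hf : IsCoc3 A f) (hf' : IsCoc3 A f') :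
    IsCoc3 A (f - f') := by
  intro g h i j
  have h1 := hf g h i j
  have h2 := hf' g h i j
  simp only [Pi.sub_apply, map_sub]
  have : A.ρ g (f (h, i, j)) - A.ρ g (f' (h, i, j)) - (f (g * h, i, j) - f' (g * h, i, j)) +
      (f (g, h * i, j) - f' (g, h * i, j)) - (f (g, h, i * j) - f' (g, h, i * j)) +
      (f (g, h, i) - f' (g, h, i)) =
      (A.ρ g (f (h, i, j)) - f (g * h, i, j) + f (g, h * i, j) - f (g, h, i * j) + f (g, h, i)) -
      (A.ρ g (f' (h, i, j)) - f' (g * h, i, j) + f' (g, h * i, j) - f' (g, h, i * j)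
        + f' (g, h, i)) := by abel
  rw [this, h1, h2, sub_zero]

end Coc

/-! ### closure properties of `H3Van` -/

section Closure

variable [Field k] {A B C : Rep.{0, 0, 0} k G} {L : LevelSys G}

lemma IsCoc3.push {φ : A →ₗ[k] B} (hφ : IsEquivariant φ) {f : G × G × G → A}
    (hf : IsCoc3 A f) : IsCoc3 B (φ ∘ f) := by
  intro g h i j
  have hφ' : ∀ (g : G) (a : A), φ (A.ρ g a) = B.ρ g (φ a) := hφ
  have := congrArg φ (hf g h i j)
  simpa only [Function.comp_apply, map_sub, map_add, map_zero, hφ'] using this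

lemma IsCoc3.of_push {φ : A →ₗ[k] B} (hφ : IsEquivariant φ) (hinj : Function.Injective φ)
    {f : G × G × G → A} (hf : IsCoc3 B (φ ∘ f)) : IsCoc3 A f := by
  intro g h i j
  have hφ' : ∀ (g : G) (a : A), φ (A.ρ g a) = B.ρ g (φ a) := hφ
  apply hinj
  have := hf g h i j
  simpa only [Function.comp_apply, map_sub, map_add, map_zero, hφ'] using this

/-- The zero module. -/
theorem h3Van_of_subsingleton [Subsingleton A] (L : LevelSys G) : H3Van L A := by
  intro z _ _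
  refine ⟨0, L.isLC₂_const (0 : A), ?_⟩
  funext x
  exact Subsingleton.elim _ _

/-- Retracts (up to an invertible scalar). -/
theorem h3Van_of_retract {i : A →ₗ[k] B} {r : B →ₗ[k] A} (hi : IsEquivariant i)
    (hr : IsEquivariant r) {c : k} (hc : c ≠ 0) (hri : ∀ a : A, r (i a) = c • a)
    (hB : H3Van L B) : H3Van L A := by
  intro z hz hzc
  obtain ⟨b, hb, hdb⟩ := hB (i ∘ z) (hz.comp i) (hzc.push hi)
  refine ⟨(c⁻¹ • r) ∘ b, hb.comp _, ?_⟩
  have hr' : IsEquivariant (A := B) (B := A) (c⁻¹ • r) := by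
    intro g a
    have hr'' : ∀ (g : G) (a : B), r (B.ρ g a) = A.ρ g (r a) := hr
    simp only [LinearMap.smul_apply, hr'', map_smul]
  rw [push_d₂₃ (c⁻¹ • r) hr', hdb]
  funext x
  simp only [Function.comp_apply, LinearMap.smul_apply, hri, smul_smul, inv_mul_cancel₀ hc,
    one_smul]

/-- Isomorphisms. -/
theorem h3Van_of_equiv (e : A ≃ₗ[k] B) (he : IsEquivariant (e : A →ₗ[k] B))
    (hB : H3Van L B) : H3Van L A := by
  refine h3Van_of_retract (i := (e : A →ₗ[k] B)) (r := (e.symm : B →ₗ[k] A)) he ?_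
    (one_ne_zero : (1 : k) ≠ 0) (fun a => by simp) hB
  intro g b
  have he' : ∀ (g : G) (a : A), e (A.ρ g a) = B.ρ g (e a) := he
  apply e.injective
  simp only [LinearEquiv.coe_coe, LinearEquiv.apply_symm_apply, he']

/-- Extensions. -/
theorem h3Van_of_ses (E : SES A B C) (hN : L.NormalCofinal) (hBs : L.IsUSmooth B)
    (hA : H3Van L A) (hC : H3Van L C) : H3Van L B := by
  intro z hz hzc
  -- kill the image in `C`
  obtain ⟨c, hc, hdc⟩ := hC (E.π ∘ z) (hz.comp E.π) (hzc.push E.hπ)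
  set c' : G × G → B := E.sec ∘ c with hc'
  have hc'lc : L.IsLC₂ c' := hc.comp E.sec
  set z' : G × G × G → B := z - (d₂₃ B).hom c' with hz'
  have hz'lc : IsLC3 L z' := hz.sub (isLC3_d₂₃ hN hBs hc'lc)
  have hz'c : IsCoc3 B z' := hzc.sub (isCoc3_d₂₃ c')
  have hπz' : ∀ x, E.π (z' x) = 0 := by
    intro x
    have h1 : E.π ∘ (d₂₃ B).hom c' = (d₂₃ C).hom (E.π ∘ c') := (push_d₂₃ E.π E.hπ c').symm
    have h2 : E.π ∘ c' = c := by
      funext y
      simp only [hc', Function.comp_apply, E.π_sec]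
    have h3 := congrFun h1 x
    rw [h2, hdc] at h3
    simp only [Function.comp_apply] at h3
    simp only [hz', Pi.sub_apply, map_sub, h3, sub_self]
  -- descend to `A`
  have hiz : (E.i ∘ (E.ret ∘ z') : G × G × G → B) = z' := E.i_comp_ret_comp hπz'
  have hz''lc : IsLC3 L (E.ret ∘ z') := hz'lc.comp E.ret
  have hz''c : IsCoc3 A (E.ret ∘ z') := IsCoc3.of_push E.hi E.inj (by rw [hiz]; exact hz'c)
  obtain ⟨a, ha, hda⟩ := hA (E.ret ∘ z') hz''lc hz''c
  refine ⟨c' + E.i ∘ a, hc'lc.add (ha.comp E.i), ?_⟩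
  rw [map_add, push_d₂₃ E.i E.hi, hda, hiz, hz']
  abel

end Closure

end Fermat.Agent.S55.H696

end
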