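import Mathlib

/-!
# S55 / dévissage (helper696), part 2: invariant functionals for `p`-power actions

* `exists_fixed_ne_zero`         : a `p`-group acting additively on a finite abelian group of order
                                   divisible by `p` has a nonzero fixed point;
* `exists_invariant_functional`  : let `ρ : Representation (ZMod p) H V` be such that every
  `ρ h` has `p`-power order, and let `N ≠ ⊥` be a stable finite-dimensional subspace.
  Then there is a linear form `ℓ` on `V`, invariant on `N`, which does not vanish on `N`;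
* `rho_eq_one_of_finrank_eq_one` : if moreover `V` is one-dimensional then `ρ h = 1`.

Mathlib only.
-/

set_option autoImplicit false

noncomputable section

namespace Fermat.Agent.S55.H696

/-- A `p`-group acting additively on a finite abelian group of order divisible by `p` has a
nonzero fixed point. -/
theorem exists_fixed_ne_zero {Γ M : Type*} [Group Γ] [AddCommGroup M] [DistribMulAction Γ M]
    [Finite M] {p : ℕ} [hp : Fact p.Prime] (hΓ : IsPGroup p Γ) (hM : p ∣ Nat.card M) :
    ∃ m : M, m ≠ 0 ∧ ∀ γ : Γ, γ • m = m := by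
  classical
  have h1 : Nat.card M ≡ Nat.card (MulAction.fixedPoints Γ M) [MOD p] :=
    hΓ.card_modEq_card_fixedPoints M
  have h0 : (0 : M) ∈ MulAction.fixedPoints Γ M := fun g => smul_zero g
  have hdvd : p ∣ Nat.card (MulAction.fixedPoints Γ M) :=
    (Nat.modEq_zero_iff_dvd).1 (h1.symm.trans (Nat.modEq_zero_iff_dvd.2 hM))
  have hpos : 0 < Nat.card (MulAction.fixedPoints Γ M) := Finite.card_pos_iff.2 ⟨⟨0, h0⟩⟩
  have hle : 2 ≤ Nat.card (MulAction.fixedPoints Γ M) :=
    hp.out.two_le.trans (Nat.le_of_dvd hpos hdvd)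
  by_contra hcon
  simp only [not_exists, not_and, not_forall, ne_eq] at hcon
  have hsub : Subsingleton (MulAction.fixedPoints Γ M) := by
    refine ⟨fun a b => ?_⟩
    have ha : (a : M) = 0 := by
      by_contra ha
      obtain ⟨γ, hγ⟩ := hcon a ha
      exact hγ (a.2 γ)
    have hb : (b : M) = 0 := by
      by_contra hb
      obtain ⟨γ, hγ⟩ := hcon b hb
      exact hγ (b.2 γ)
    exact Subtype.ext (ha.trans hb.symm)
  have : Nat.card (MulAction.fixedPoints Γ M) ≤ 1 := Finite.card_le_one_iff_subsingleton.2 hsub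
  omega

section Functional

variable {p : ℕ} [hp : Fact p.Prime] {H V : Type} [Group H] [AddCommGroup V]
  [Module (ZMod p) V]

/-- Invariant linear forms on a stable subspace, for an action through elements of `p`-power
order. -/
theorem exists_invariant_functional (ρ : Representation (ZMod p) H V)
    (hpow : ∀ h : H, ∃ n : ℕ, ρ (h ^ p ^ n) = 1)
    (N : Submodule (ZMod p) V) [FiniteDimensional (ZMod p) N] (hN : N ≠ ⊥)
    (hst : ∀ h : H, N ≤ N.comap (ρ h)) :
    ∃ ℓ : V →ₗ[ZMod p] ZMod p,
      (∀ (h : H) (n : V), n ∈ N → ℓ (ρ h n) = ℓ n) ∧ ∃ n₀ ∈ N, ℓ n₀ ≠ 0 := by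
  classical
  -- the representation on `N` and its dual
  let ρN : Representation (ZMod p) H N := ρ.subrepresentation N hst
  let ρD : Representation (ZMod p) H (Module.Dual (ZMod p) N) := ρN.dual
  let Γ : Subgroup (Module.End (ZMod p) (Module.Dual (ZMod p) N))ˣ :=
    (Representation.asGroupHom ρD).range
  have hΓ : IsPGroup p Γ := by
    rintro ⟨γ, hγ⟩
    obtain ⟨h, rfl⟩ := hγ
    obtain ⟨n, hn⟩ := hpow h
    refine ⟨n, ?_⟩
    apply Subtype.ext
    show (Representation.asGroupHom ρD h) ^ p ^ n = 1
    rw [← map_pow]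
    apply Units.ext
    show ρD (h ^ p ^ n) = 1
    have h1 : ρN (h ^ p ^ n) = 1 := by
      apply LinearMap.ext
      intro x
      apply Subtype.ext
      show ρ (h ^ p ^ n) (x : V) = x
      rw [hn]
      rfl
    apply LinearMap.ext
    intro f
    apply LinearMap.ext
    intro x
    show (ρN.dual (h ^ p ^ n) f) x = f x
    rw [Representation.dual_apply, Module.Dual.transpose_apply, LinearMap.comp_apply]
    have h2 : ρN ((h ^ p ^ n)⁻¹) = 1 := by
      have := map_mul ρN ((h ^ p ^ n)⁻¹) (h ^ p ^ n)
      rw [inv_mul_cancel, map_one, h1, mul_one] at this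
      exact this.symm
    rw [h2]
    rfl
  have : Finite (ZMod p) := inferInstance
  have : Finite (Module.Dual (ZMod p) N) := Module.finite_of_finite (ZMod p)
  have hcard : p ∣ Nat.card (Module.Dual (ZMod p) N) := by
    rw [Module.natCard_eq_pow_finrank (K := ZMod p), Nat.card_zmod, Subspace.dual_finrank_eq]
    have hpos : 0 < Module.finrank (ZMod p) N := by
      rw [Module.finrank_pos_iff]
      exact (Submodule.nontrivial_iff_ne_bot).2 hN
    exact dvd_pow_self p hpos.ne'
  obtain ⟨f, hf0, hfix⟩ := exists_fixed_ne_zero (Γ := Γ) (M := Module.Dual (ZMod p) N) hΓ hcard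
  -- invariance of `f`
  have hinv : ∀ (h : H) (x : N), f (ρN h x) = f x := by
    intro h x
    have h1 : (⟨Representation.asGroupHom ρD h⁻¹, ⟨h⁻¹, rfl⟩⟩ : Γ) • f = f := hfix _
    have h2 : ρD h⁻¹ f = f := h1
    have h3 := LinearMap.congr_fun h2 x
    rw [show ρD h⁻¹ f = (ρN.dual h⁻¹) f from rfl, Representation.dual_apply,
      Module.Dual.transpose_apply, LinearMap.comp_apply, inv_inv] at h3
    exact h3
  -- extend to `V`
  obtain ⟨ℓ, hℓ⟩ := LinearMap.exists_extend f
  have hℓ' : ∀ x : N, ℓ (x : V) = f x := fun x => LinearMap.congr_fun hℓ x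
  refine ⟨ℓ, fun h n hn => ?_, ?_⟩
  · have := hinv h ⟨n, hn⟩
    rw [← hℓ', ← hℓ'] at this
    exact this
  · obtain ⟨x, hx⟩ : ∃ x : N, f x ≠ 0 := by
      by_contra hcon
      simp only [not_exists, not_not] at hcon
      exact hf0 (LinearMap.ext hcon)
    exact ⟨x, x.2, by rw [hℓ']; exact hx⟩

/-- An action on a line over `ZMod p` through elements of `p`-power order is trivial. -/
theorem rho_eq_one_of_finrank_eq_one (ρ : Representation (ZMod p) H V)
    (hV : Module.finrank (ZMod p) V = 1) (h : H) (n : ℕ) (hn : ρ (h ^ p ^ n) = 1) :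
    ρ h = 1 := by
  obtain ⟨m₀, hm₀⟩ := finrank_eq_one_iff'.1 hV
  obtain ⟨c, hc⟩ := hm₀.2 (ρ h m₀)
  have hpowc : ∀ j : ℕ, ρ (h ^ j) m₀ = c ^ j • m₀ := by
    intro j
    induction j with
    | zero => simp
    | succ j ih =>
      rw [pow_succ', map_mul, Module.End.mul_apply, ih, map_smul, ← hc, smul_smul, pow_succ]
  have hcp : ∀ j : ℕ, c ^ p ^ j = c := by
    intro j
    induction j with
    | zero => simp
    | succ j ih => rw [pow_succ, pow_mul, ih, ZMod.pow_card]
  have h1 : c • m₀ = m₀ := by
    have := hpowc (p ^ n)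
    rw [hn, hcp] at this
    exact this.symm
  apply LinearMap.ext
  intro v
  obtain ⟨a, rfl⟩ := hm₀.2 v
  rw [map_smul, ← hc, h1]
  rfl

end Functional

end Fermat.Agent.S55.H696

end
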