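import Fermat.Agent.S55.H696.DevClosure
import Fermat.Agent.S55.H696.DevFixed

/-!
# S55 / dévissage (helper696), part 3: the filtration of `Ind_H R`

`H ≤ G` a subgroup, `R` a representation of `G` over a field `k`.  For a subspace `N ≤ R` put

  `filt H R N = {f : G ⧸ H →₀ R | ∀ g, g⁻¹ • f (g H) ∈ N}`,

a `G`-stable subspace of `Ind_H R = (G ⧸ H →₀ R)` (diagonal action); `filtRep H R N` is the
corresponding representation.  If `N` is `H`-stable, `ℓ` is a linear form on `R` which is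
`H`-invariant on `N` and does not vanish on `N`, and `μ` is a line on which `H` acts trivially,
there is a short exact sequence

  `0 → filtRep H R (N ⊓ ker ℓ) → filtRep H R N → Ind_H μ → 0`          (`filtSES`).
-/

set_option autoImplicit false

noncomputable section

namespace Fermat.Agent.S55.H696

open groupCohomology Fermat.Agent.S55.PT

variable {G : Type} [Group G] {k : Type} [Field k]

/-! ### the induced action, pointwise -/

lemma indAct_apply (H : Subgroup G) (M : Rep.{0, 0, 0} k G) (g : G) (f : (G ⧸ H) →₀ M)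
    (x : G ⧸ H) : indAct H M g f x = M.ρ g (f (g⁻¹ • x)) := by
  have key : (Finsupp.lapply x) ∘ₗ (indAct H M g) =
      (M.ρ g) ∘ₗ (Finsupp.lapply (g⁻¹ • x) : ((G ⧸ H) →₀ M) →ₗ[k] M) := by
    apply Finsupp.lhom_ext
    intro y m
    simp only [LinearMap.comp_apply, indAct_single, Finsupp.lapply_apply]
    by_cases h : g • y = x
    · subst h
      rw [inv_smul_smul, Finsupp.single_eq_same, Finsupp.single_eq_same]
    · have h' : ¬ y = g⁻¹ • x := fun h' => h (by rw [h', smul_inv_smul])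
      have e1 : (Finsupp.single (g • y) (M.ρ g m) : (G ⧸ H) →₀ M) x = 0 := by
        classical
        rw [Finsupp.single_apply, if_neg h]
      have e2 : (Finsupp.single y m : (G ⧸ H) →₀ M) (g⁻¹ • x) = 0 := by
        classical
        rw [Finsupp.single_apply, if_neg h']
      rw [e1, e2, map_zero]
  exact LinearMap.congr_fun key f

lemma smul_mk_eq (H : Subgroup G) (g a : G) : g • (a : G ⧸ H) = ((g * a : G) : G ⧸ H) := rfl

/-! ### the filtration -/

section Filt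

variable (H : Subgroup G) (R : Rep.{0, 0, 0} k G)

/-- `{f : G ⧸ H →₀ R | ∀ g, g⁻¹ • f (g H) ∈ N}` -/
def filt (N : Submodule k R) : Submodule k ((G ⧸ H) →₀ R) where
  carrier := {f | ∀ g : G, R.ρ g⁻¹ (f (g : G ⧸ H)) ∈ N}
  add_mem' := by
    intro f f' hf hf' g
    simp only [Finsupp.coe_add, Pi.add_apply, map_add]
    exact N.add_mem (hf g) (hf' g)
  zero_mem' := by
    intro g
    simp only [Finsupp.coe_zero, Pi.zero_apply, map_zero]
    exact N.zero_mem
  smul_mem' := by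
    intro c f hf g
    simp only [Finsupp.coe_smul, Pi.smul_apply, map_smul]
    exact N.smul_mem c (hf g)

variable {H R}

lemma mem_filt {N : Submodule k R} {f : (G ⧸ H) →₀ R} :
    f ∈ filt H R N ↔ ∀ g : G, R.ρ g⁻¹ (f (g : G ⧸ H)) ∈ N := Iff.rfl

lemma filt_mono {N N' : Submodule k R} (h : N' ≤ N) : filt H R N' ≤ filt H R N :=
  fun _ hf g => h (hf g)

variable (H R)

lemma filt_le_comap (N : Submodule k R) (g : G) :
    filt H R N ≤ (filt H R N).comap (indRho H R g) := by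
  intro f hf a
  show R.ρ a⁻¹ (indAct H R g f (a : G ⧸ H)) ∈ N
  rw [indAct_apply, smul_mk_eq, ← Module.End.mul_apply, ← map_mul]
  have := hf (g⁻¹ * a)
  rwa [mul_inv_rev, inv_inv] at this

/-- the representation on `filt H R N` -/
abbrev filtRep (N : Submodule k R) : Rep.{0, 0, 0} k G :=
  Rep.of ((indRho H R).subrepresentation (filt H R N) (filt_le_comap H R N))

lemma filtRep_ρ_coe (N : Submodule k R) (g : G) (f : ↥(filt H R N)) :
    (((filtRep H R N).ρ g f : ↥(filt H R N)) : (G ⧸ H) →₀ R) =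
      indAct H R g (f : (G ⧸ H) →₀ R) := rfl

instance filtRep_bot_subsingleton : Subsingleton (filtRep H R (⊥ : Submodule k R)) := by
  refine ⟨fun a b => ?_⟩
  have h0 : ∀ f : ↥(filt H R (⊥ : Submodule k R)), (f : (G ⧸ H) →₀ R) = 0 := by
    intro f
    ext x
    induction x using QuotientGroup.induction_on with
    | H g =>
      have h1 : R.ρ g⁻¹ ((f : (G ⧸ H) →₀ R) (g : G ⧸ H)) = 0 := (Submodule.mem_bot k).1 (f.2 g)
      have h2 := congrArg (R.ρ g) h1
      rw [← Module.End.mul_apply, ← map_mul, mul_inv_cancel, map_one, map_zero] at h2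
      exact h2
  exact Subtype.ext ((h0 a).trans (h0 b).symm)

/-- a normal subgroup contained in `H` and acting trivially on `R` acts trivially on
`Ind_H R` -/
lemma indAct_eq_self_of_normal (U : Subgroup G) [U.Normal] (hUH : U ≤ H)
    (hUR : ∀ s ∈ U, ∀ r : R, R.ρ s r = r) (s : G) (hs : s ∈ U) (f : (G ⧸ H) →₀ R) :
    indAct H R s f = f := by
  ext x
  rw [indAct_apply, hUR s hs]
  congr 1
  induction x using QuotientGroup.induction_on with
  | H g =>
    rw [smul_mk_eq]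
    apply QuotientGroup.eq.2
    have h1 : g⁻¹ * s * g⁻¹⁻¹ ∈ U := ‹U.Normal›.conj_mem s hs g⁻¹
    have h2 : (s⁻¹ * g)⁻¹ * g = g⁻¹ * s * g⁻¹⁻¹ := by group
    rw [h2]
    exact hUH h1

end Filt

/-! ### the graded pieces -/

section Graded

variable (H : Subgroup G) (R μ : Rep.{0, 0, 0} k G) (ℓ : R →ₗ[k] k) (m₀ : μ)

/-- the component `r ↦ ℓ (x̃⁻¹ r) • x̃ m₀` at the coset `x` (`x̃` the chosen representative) -/
def gradAt (x : G ⧸ H) : R →ₗ[k] μ :=
  (LinearMap.toSpanSingleton k μ (μ.ρ (Quotient.out x) m₀)) ∘ₗ ℓ ∘ₗ (R.ρ (Quotient.out x)⁻¹)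

lemma gradAt_apply (x : G ⧸ H) (r : R) :
    gradAt H R μ ℓ m₀ x r = ℓ (R.ρ (Quotient.out x)⁻¹ r) • μ.ρ (Quotient.out x) m₀ := rfl

/-- the map `Ind_H R → Ind_H μ`, `f ↦ (x ↦ ℓ (x̃⁻¹ f x) • x̃ m₀)` -/
def grad : ((G ⧸ H) →₀ R) →ₗ[k] ((G ⧸ H) →₀ μ) :=
  Finsupp.lsum k (fun x : G ⧸ H => (Finsupp.lsingle x) ∘ₗ (gradAt H R μ ℓ m₀ x))

lemma grad_single (x : G ⧸ H) (r : R) :
    grad H R μ ℓ m₀ (Finsupp.single x r) = Finsupp.single x (gradAt H R μ ℓ m₀ x r) := by
  rw [grad, Finsupp.lsum_single]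
  rfl

lemma grad_apply (f : (G ⧸ H) →₀ R) (x : G ⧸ H) :
    grad H R μ ℓ m₀ f x = gradAt H R μ ℓ m₀ x (f x) := by
  have key : (Finsupp.lapply x) ∘ₗ (grad H R μ ℓ m₀) =
      (gradAt H R μ ℓ m₀ x) ∘ₗ (Finsupp.lapply x : ((G ⧸ H) →₀ R) →ₗ[k] R) := by
    apply Finsupp.lhom_ext
    intro y r
    simp only [LinearMap.comp_apply, grad_single, Finsupp.lapply_apply]
    by_cases h : y = x
    · subst h
      rw [Finsupp.single_eq_same, Finsupp.single_eq_same]
    · have e1 : (Finsupp.single y (gradAt H R μ ℓ m₀ y r) : (G ⧸ H) →₀ μ) x = 0 := by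
        classical
        rw [Finsupp.single_apply, if_neg h]
      have e2 : (Finsupp.single y r : (G ⧸ H) →₀ R) x = 0 := by
        classical
        rw [Finsupp.single_apply, if_neg h]
      rw [e1, e2, map_zero]
  exact LinearMap.congr_fun key f

variable {H R μ ℓ m₀}

/-- Independence of the representative. -/
lemma grad_apply_mk {N : Submodule k R} (hμH : ∀ h ∈ H, μ.ρ h = 1)
    (hℓ : ∀ h ∈ H, ∀ n ∈ N, ℓ (R.ρ h n) = ℓ n) {f : (G ⧸ H) →₀ R} (hf : f ∈ filt H R N)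
    (g : G) :
    grad H R μ ℓ m₀ f (g : G ⧸ H) = ℓ (R.ρ g⁻¹ (f (g : G ⧸ H))) • μ.ρ g m₀ := by
  rw [grad_apply, gradAt_apply]
  obtain ⟨h, hh⟩ := QuotientGroup.mk_out_eq_mul H g
  have hout : Quotient.out (g : G ⧸ H) = g * (h : G) := hh
  rw [hout, mul_inv_rev, map_mul, map_mul, Module.End.mul_apply, Module.End.mul_apply,
    hμH h h.2, Module.End.one_apply, hℓ _ (H.inv_mem h.2) _ (hf g)]

lemma grad_indAct {N : Submodule k R} (hμH : ∀ h ∈ H, μ.ρ h = 1)
    (hℓ : ∀ h ∈ H, ∀ n ∈ N, ℓ (R.ρ h n) = ℓ n) {f : (G ⧸ H) →₀ R} (hf : f ∈ filt H R N)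
    (g : G) :
    grad H R μ ℓ m₀ (indAct H R g f) = indAct H μ g (grad H R μ ℓ m₀ f) := by
  have hf' : indAct H R g f ∈ filt H R N := filt_le_comap H R N g hf
  ext x
  induction x using QuotientGroup.induction_on with
  | H a =>
    rw [grad_apply_mk hμH hℓ hf' a, indAct_apply, indAct_apply,
      smul_mk_eq, grad_apply_mk hμH hℓ hf (g⁻¹ * a), map_smul, ← Module.End.mul_apply,
      ← Module.End.mul_apply, ← map_mul, ← map_mul, mul_inv_rev, inv_inv, mul_inv_cancel_left]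

lemma rho_ne_zero (hm₀ : m₀ ≠ 0) (g : G) : μ.ρ g m₀ ≠ 0 := by
  intro h
  apply hm₀
  have := congrArg (μ.ρ g⁻¹) h
  rwa [← Module.End.mul_apply, ← map_mul, inv_mul_cancel, map_one, map_zero] at this

lemma grad_eq_zero_iff {N : Submodule k R} (hμH : ∀ h ∈ H, μ.ρ h = 1)
    (hℓ : ∀ h ∈ H, ∀ n ∈ N, ℓ (R.ρ h n) = ℓ n) (hm₀ : m₀ ≠ 0) {f : (G ⧸ H) →₀ R}
    (hf : f ∈ filt H R N) :
    grad H R μ ℓ m₀ f = 0 ↔ f ∈ filt H R (N ⊓ LinearMap.ker ℓ) := by
  constructor
  · intro h g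
    refine ⟨hf g, ?_⟩
    have h1 := grad_apply_mk (m₀ := m₀) hμH hℓ hf g
    rw [h, Finsupp.coe_zero, Pi.zero_apply] at h1
    rcases smul_eq_zero.1 h1.symm with h2 | h2
    · exact h2
    · exact absurd h2 (rho_ne_zero hm₀ g)
  · intro h
    ext x
    induction x using QuotientGroup.induction_on with
    | H g =>
      rw [grad_apply_mk hμH hℓ hf g, Finsupp.coe_zero, Pi.zero_apply]
      have : ℓ (R.ρ g⁻¹ (f (g : G ⧸ H))) = 0 := (h g).2
      rw [this, zero_smul]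

lemma exists_grad_eq_single {N : Submodule k R} (hμ1 : Module.finrank k μ = 1)
    (hμH : ∀ h ∈ H, μ.ρ h = 1) (hNH : ∀ h ∈ H, N ≤ N.comap (R.ρ h))
    (hℓ : ∀ h ∈ H, ∀ n ∈ N, ℓ (R.ρ h n) = ℓ n) (hm₀ : m₀ ≠ 0) {n₀ : R} (hn₀ : n₀ ∈ N)
    (hℓn₀ : ℓ n₀ ≠ 0) (g : G) (m : μ) :
    ∃ f ∈ filt H R N, grad H R μ ℓ m₀ f = Finsupp.single (g : G ⧸ H) m := by
  obtain ⟨c, hc⟩ := (finrank_eq_one_iff_of_nonzero' (μ.ρ g m₀) (rho_ne_zero hm₀ g)).1 hμ1 m
  set r : R := (c * (ℓ n₀)⁻¹) • R.ρ g n₀ with hr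
  have hmem : (Finsupp.single (g : G ⧸ H) r : (G ⧸ H) →₀ R) ∈ filt H R N := by
    intro a
    by_cases h : (g : G ⧸ H) = (a : G ⧸ H)
    · rw [← h, Finsupp.single_eq_same, hr, map_smul, ← Module.End.mul_apply, ← map_mul]
      have hH : a⁻¹ * g ∈ H := by
        have := QuotientGroup.eq.1 h.symm
        exact this
      exact N.smul_mem _ (hNH _ hH hn₀)
    · have e : (Finsupp.single (g : G ⧸ H) r : (G ⧸ H) →₀ R) (a : G ⧸ H) = 0 := by
        classical
        rw [Finsupp.single_apply, if_neg h]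
      rw [e, map_zero]
      exact N.zero_mem
  refine ⟨_, hmem, ?_⟩
  have h1 := grad_apply_mk (m₀ := m₀) hμH hℓ hmem g
  rw [grad_single] at h1 ⊢
  rw [Finsupp.single_eq_same] at h1
  rw [h1, Finsupp.single_eq_same, hr, map_smul, ← Module.End.mul_apply, ← map_mul,
    inv_mul_cancel, map_one, Module.End.one_apply, map_smul, smul_eq_mul, mul_assoc,
    inv_mul_cancel₀ hℓn₀, mul_one, hc]

variable (H R μ ℓ m₀)

/-- the short exact sequence `0 → filt (N ⊓ ker ℓ) → filt N → Ind_H μ → 0` -/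
def filtSES (N : Submodule k R) (hμ1 : Module.finrank k μ = 1)
    (hμH : ∀ h ∈ H, μ.ρ h = 1) (hNH : ∀ h ∈ H, N ≤ N.comap (R.ρ h))
    (hℓ : ∀ h ∈ H, ∀ n ∈ N, ℓ (R.ρ h n) = ℓ n) (hm₀ : m₀ ≠ 0)
    (hn₀ : ∃ n₀ ∈ N, ℓ n₀ ≠ 0) :
    SES (filtRep H R (N ⊓ LinearMap.ker ℓ)) (filtRep H R N) (indRep H μ) where
  i := Submodule.inclusion (filt_mono (inf_le_left : N ⊓ LinearMap.ker ℓ ≤ N))
  π := (grad H R μ ℓ m₀) ∘ₗ (filt H R N).subtype
  hi := fun _ _ => rfl
  hπ := fun g f => grad_indAct hμH hℓ f.2 g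
  inj := Submodule.inclusion_injective _
  surj := by
    obtain ⟨n₀, hn₀N, hℓn₀⟩ := hn₀
    intro F
    induction F using Finsupp.induction_linear with
    | zero => exact ⟨0, map_zero _⟩
    | add a b ha hb =>
      obtain ⟨fa, hfa⟩ := ha
      obtain ⟨fb, hfb⟩ := hb
      exact ⟨fa + fb, by rw [map_add, hfa, hfb]⟩
    | single x m =>
      induction x using QuotientGroup.induction_on with
      | H g =>
        obtain ⟨f, hf, hfg⟩ := exists_grad_eq_single hμ1 hμH hNH hℓ hm₀ hn₀N hℓn₀ g m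
        exact ⟨⟨f, hf⟩, hfg⟩
  exact := by
    ext f
    constructor
    · rintro ⟨f', rfl⟩
      rw [LinearMap.mem_ker]
      exact (grad_eq_zero_iff hμH hℓ hm₀ (filt_mono inf_le_left f'.2)).2 f'.2
    · intro hf
      rw [LinearMap.mem_ker] at hf
      exact ⟨⟨f.1, (grad_eq_zero_iff hμH hℓ hm₀ f.2).1 hf⟩, rfl⟩

end Graded

end Fermat.Agent.S55.H696

end
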